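/-
S19lib / T / Tors  (helper1, block FF-T, part 1): **`TorsStmt`**.

`J₀(N)[m]`, `m ≠ 0`, is a finite continuous Galois module: finiteness from the Kummer comparison
`S29lib.Z.compStatement` (prime powers) and a dévissage, open stabilisers from
`S29lib.GH.finiteLevel_fix_class`.
-/
import Mathlib
import Fermat.Agent.S19lib.Iface
import Fermat.Agent.S29lib.GH.OpenStab
import Fermat.Agent.S29lib.Z.Final

set_option autoImplicit false

noncomputable section

namespace Fermat.Agent.S19lib.T

open ModularCurve Fermat.Agent.S29lib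

local notation "Qb" => AlgebraicClosure ℚ
local notation "GQ" => (AlgebraicClosure ℚ ≃ₐ[ℚ] AlgebraicClosure ℚ)

/-! ### dévissage of torsion subgroups -/

section Generic

variable {M : Type*} [AddCommGroup M]

theorem finite_torsionBy_mul (a b : ℤ)
    (ha : (Submodule.torsionBy ℤ M a : Set M).Finite)
    (hb : (Submodule.torsionBy ℤ M b : Set M).Finite) :
    (Submodule.torsionBy ℤ M (a * b) : Set M).Finite := by
  refine Set.Finite.of_finite_fibers (fun x : M => b • x) (ha.subset ?_) ?_
  · rintro _ ⟨x, hx, rfl⟩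
    rw [SetLike.mem_coe, Submodule.mem_torsionBy_iff] at hx ⊢
    rw [smul_smul]
    exact hx
  · rintro _ ⟨x₀, -, rfl⟩
    refine (hb.image (fun z => x₀ + z)).subset ?_
    rintro x ⟨-, hx⟩
    refine ⟨x - x₀, ?_, add_sub_cancel x₀ x⟩
    rw [SetLike.mem_coe, Submodule.mem_torsionBy_iff, smul_sub]
    exact sub_eq_zero.mpr hx

theorem torsionBy_natAbs (m : ℤ) :
    Submodule.torsionBy ℤ M (m.natAbs : ℤ) = Submodule.torsionBy ℤ M m := by
  ext x
  rw [Submodule.mem_torsionBy_iff, Submodule.mem_torsionBy_iff]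
  rcases Int.natAbs_eq m with h | h
  · rw [← h]
  · conv_rhs => rw [h]
    rw [neg_smul, neg_eq_zero]

end Generic

/-! ### the torsion of `J₀(N)` -/

variable (N : ℕ) [NeZero N]

theorem finite_tors_prime_pow {p : ℕ} (hp : p.Prime) (k : ℕ) :
    (Submodule.torsionBy ℤ (JZero N) ((p ^ k : ℕ) : ℤ) : Set (JZero N)).Finite := by
  obtain ⟨C, -⟩ := Z.compStatement N p hp
  have : NeZero (p ^ k) := ⟨pow_ne_zero k hp.ne_zero⟩
  have : Finite (Tors N (p ^ k)) := Finite.of_equiv _ (C.κ k).symm.toEquiv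
  exact Set.toFinite _

theorem finite_tors_nat (n : ℕ) (hn : n ≠ 0) :
    (Submodule.torsionBy ℤ (JZero N) (n : ℤ) : Set (JZero N)).Finite := by
  induction n using Nat.recOnMul with
  | zero => exact absurd rfl hn
  | one =>
    refine (Set.finite_singleton (0 : JZero N)).subset fun x hx => ?_
    rw [SetLike.mem_coe, Submodule.mem_torsionBy_iff, Nat.cast_one, one_smul] at hx
    exact hx
  | prime p hp =>
    have := finite_tors_prime_pow N hp 1
    rwa [pow_one] at this
  | mul a b iha ihb =>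
    have ha : a ≠ 0 := fun h => hn (by rw [h, zero_mul])
    have hb : b ≠ 0 := fun h => hn (by rw [h, mul_zero])
    rw [Nat.cast_mul]
    exact finite_torsionBy_mul _ _ (iha ha) (ihb hb)

theorem finite_tors (m : ℤ) (hm : m ≠ 0) : (tors N m : Set (JZero N)).Finite := by
  have h := finite_tors_nat N m.natAbs (Int.natAbs_ne_zero.mpr hm)
  rw [torsionBy_natAbs] at h
  exact h

theorem mem_tors_iff {m : ℤ} {x : JZero N} : x ∈ tors N m ↔ m • x = 0 := by
  rw [tors, Submodule.mem_toAddSubgroup, Submodule.mem_torsionBy_iff]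

theorem smul_mem_tors {m : ℤ} (σ : GQ) {x : JZero N} (hx : x ∈ tors N m) : σ • x ∈ tors N m := by
  rw [mem_tors_iff] at hx ⊢
  rw [← galois_smul_zsmul, hx]
  exact (DistribSMul.toAddMonoidHom (JZero N) σ).map_zero

/-- **`TorsStmt`** -/
theorem torsStmt : TorsStmt := by
  intro N _ m hm
  refine ⟨?_, fun σ x hx => smul_mem_tors N σ hx, fun x _ => ?_⟩
  · exact (finite_tors N m hm).to_subtype
  · obtain ⟨L, hL, h⟩ := GH.finiteLevel_fix_class N x
    exact ⟨L, hL, fun σ hσ => h σ hσ⟩

end Fermat.Agent.S19lib.T
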