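/-
S19lib / T / Transfer  (helper1, block FF-T, part 2): **`TransferStmt`**.

For `N ∣ N'` and a prime `ℓ`, `J₀(N)[ℓ^k]` is an equivariant quotient of a Galois-stable subgroup
`M` of `J₀(N')[ℓ^k']`.  One step `N → N q`: with `π = ` the degeneracy covering
`X₀(N q) → X₀(N)` (`heckeAlphaBar`), `d = deg π = ℓ^a d'`, `ℓ ∤ d'`, `k' = k + a`,
`M = π^* (J₀(N)[ℓ^k'])` and `f = u • π_*` (`u d' ≡ 1 mod ℓ^k'`), so that `f (π^* y) = ℓ^a • y`;
surjectivity is the `ℓ`-divisibility of `J₀(N)[ℓ^∞]` (Kummer comparison).  All inputs are on main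
(`LSb/Xfer`, `S29lib/GH`, `S37lib/HeckeInst`).
-/
import Mathlib
import Fermat.Agent.S19lib.T.Tors
import Fermat.Agent.LSb.Xfer.Modular

set_option autoImplicit false
set_option linter.unusedSectionVars false
set_option linter.style.haveILetI false

noncomputable section

namespace Fermat.Agent.S19lib.T

open ModularCurve AlgebraicCurve AlgebraicCurve.SemilinearAut
open Fermat.Agent.S29lib Fermat.Agent.S37lib.HeckeInst Fermat.Agent.LSb.Xfer

local notation "Qb" => AlgebraicClosure ℚ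
local notation "GQ" => (AlgebraicClosure ℚ ≃ₐ[ℚ] AlgebraicClosure ℚ)

/-! ### the abstract step -/

section Abstract

variable {G J J' : Type*} [Monoid G] [AddCommGroup J] [AddCommGroup J']
  [DistribMulAction G J] [DistribMulAction G J']

/-- the `m`-torsion subgroup -/
def torsOf (J : Type*) [AddCommGroup J] (m : ℤ) : AddSubgroup J :=
  (Submodule.torsionBy ℤ J m).toAddSubgroup

theorem mem_torsOf {m : ℤ} {x : J} : x ∈ torsOf J m ↔ m • x = 0 := by
  rw [torsOf, Submodule.mem_toAddSubgroup, Submodule.mem_torsionBy_iff]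

/-- a transfer datum from `J'` to `J` at `(ℓ, k)` -/
def HasTransfer (G : Type*) [Monoid G] (J J' : Type*) [AddCommGroup J] [AddCommGroup J']
    [DistribMulAction G J] [DistribMulAction G J'] (ℓ k : ℕ) : Prop :=
  ∃ (k' : ℕ) (M : AddSubgroup J'), M ≤ torsOf J' ((ℓ : ℤ) ^ k') ∧
    (∀ σ : G, ∀ x ∈ M, σ • x ∈ M) ∧
    ∃ f : M →+ torsOf J ((ℓ : ℤ) ^ k), Function.Surjective f ∧
      ∀ (σ : G) (x y : M), (y : J') = σ • (x : J') →
        ((f y : torsOf J ((ℓ : ℤ) ^ k)) : J) = σ • ((f x : torsOf J ((ℓ : ℤ) ^ k)) : J)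

theorem smul_zsmul' (σ : G) (m : ℤ) (x : J) : σ • (m • x) = m • (σ • x) :=
  (DistribSMul.toAddMonoidHom J σ).map_zsmul m x

/-- iterated divisibility -/
theorem exists_pow_smul_eq_of_div {ℓ : ℕ}
    (hdiv : ∀ (k : ℕ) (y : J), ((ℓ : ℤ) ^ k) • y = 0 →
      ∃ y' : J, ((ℓ : ℤ) ^ (k + 1)) • y' = 0 ∧ (ℓ : ℤ) • y' = y)
    (a k : ℕ) (y : J) (hy : ((ℓ : ℤ) ^ k) • y = 0) :
    ∃ y' : J, ((ℓ : ℤ) ^ (k + a)) • y' = 0 ∧ ((ℓ : ℤ) ^ a) • y' = y := by
  induction a generalizing k y with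
  | zero => exact ⟨y, by simpa using hy, by simp⟩
  | succ a ih =>
    obtain ⟨y₁, hy₁, hy₁y⟩ := hdiv k y hy
    obtain ⟨y₂, hy₂, hy₂y⟩ := ih (k + 1) y₁ hy₁
    refine ⟨y₂, ?_, ?_⟩
    · rw [show k + (a + 1) = k + 1 + a by ring]; exact hy₂
    · rw [pow_succ, mul_comm, mul_smul, hy₂y, hy₁y]

/-- **the abstract transfer step** -/
theorem hasTransfer_of_pull_push (pull : J →+ J') (push : J' →+ J) (d : ℕ) (hd : d ≠ 0)
    (hpp : ∀ y, push (pull y) = (d : ℤ) • y)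
    (hpull : ∀ (σ : G) (y : J), pull (σ • y) = σ • pull y)
    {ℓ : ℕ} (hℓ : ℓ.Prime)
    (hdiv : ∀ (k : ℕ) (y : J), ((ℓ : ℤ) ^ k) • y = 0 →
      ∃ y' : J, ((ℓ : ℤ) ^ (k + 1)) • y' = 0 ∧ (ℓ : ℤ) • y' = y) (k : ℕ) :
    HasTransfer G J J' ℓ k := by
  obtain ⟨a, d', hd', rfl⟩ := Nat.exists_eq_pow_mul_and_not_dvd hd ℓ hℓ.ne_one
  set k' := k + a with hk'
  -- the inverse of `d'` modulo `ℓ ^ k'`
  have hcop : IsCoprime (d' : ℤ) ((ℓ : ℤ) ^ k') := by
    refine IsCoprime.pow_right ?_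
    rw [Nat.isCoprime_iff_coprime]
    exact (Nat.Coprime.symm ((Nat.Prime.coprime_iff_not_dvd hℓ).mpr hd'))
  obtain ⟨u, v, huv⟩ := hcop
  -- the key identity
  have key : ∀ y : J, ((ℓ : ℤ) ^ k') • y = 0 → u • push (pull y) = ((ℓ : ℤ) ^ a) • y := by
    intro y hy
    rw [hpp]
    have h1 : u • ((ℓ ^ a * d' : ℕ) : ℤ) • y = ((ℓ : ℤ) ^ a) • ((u * d') • y) := by
      rw [smul_smul, smul_smul]; congr 1; push_cast; ring
    have h2 : (u * (d' : ℤ)) • y = y := by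
      have : u * (d' : ℤ) = 1 - v * (ℓ : ℤ) ^ k' := by linear_combination huv
      rw [this, sub_smul, one_smul, mul_smul, hy, smul_zero, sub_zero]
    rw [h1, h2]
  set M : AddSubgroup J' := (torsOf J ((ℓ : ℤ) ^ k')).map pull with hM
  have hMmem : ∀ x ∈ M, u • push x ∈ torsOf J ((ℓ : ℤ) ^ k) := by
    rintro _ ⟨y, hy, rfl⟩
    rw [SetLike.mem_coe, mem_torsOf] at hy
    rw [key y hy, mem_torsOf, smul_smul, ← pow_add]
    exact hy
  refine ⟨k', M, ?_, ?_, ?_⟩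
  · rintro _ ⟨y, hy, rfl⟩
    rw [SetLike.mem_coe, mem_torsOf] at hy
    rw [mem_torsOf, ← map_zsmul, hy, map_zero]
  · rintro σ _ ⟨y, hy, rfl⟩
    refine ⟨σ • y, ?_, hpull σ y⟩
    rw [SetLike.mem_coe, mem_torsOf] at hy ⊢
    rw [← smul_zsmul', hy, smul_zero]
  · let f : M →+ torsOf J ((ℓ : ℤ) ^ k) :=
      { toFun := fun x => ⟨u • push (x : J'), hMmem x x.2⟩
        map_zero' := Subtype.ext (by simp)
        map_add' := fun x y => Subtype.ext (by simp [smul_add]) }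
    have hf : ∀ (y : J) (hy : y ∈ torsOf J ((ℓ : ℤ) ^ k')),
        ((f ⟨pull y, AddSubgroup.mem_map_of_mem pull hy⟩ : torsOf J ((ℓ : ℤ) ^ k)) : J) =
          ((ℓ : ℤ) ^ a) • y := fun y hy => key y (mem_torsOf.mp hy)
    refine ⟨f, ?_, ?_⟩
    · rintro ⟨y₀, hy₀⟩
      obtain ⟨y, hy, hyy₀⟩ := exists_pow_smul_eq_of_div hdiv a k y₀ (mem_torsOf.mp hy₀)
      have hyT : y ∈ torsOf J ((ℓ : ℤ) ^ k') := mem_torsOf.mpr hy
      refine ⟨⟨pull y, AddSubgroup.mem_map_of_mem pull hyT⟩, Subtype.ext ?_⟩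
      rw [hf y hyT]
      exact hyy₀
    · rintro σ ⟨_, ⟨y, hy, rfl⟩⟩ ⟨x', hx'⟩ hxy
      have hσy : σ • y ∈ torsOf J ((ℓ : ℤ) ^ k') := by
        rw [SetLike.mem_coe, mem_torsOf] at hy
        rw [mem_torsOf, ← smul_zsmul', hy, smul_zero]
      have hx'eq : x' = pull (σ • y) := by rw [hpull]; exact hxy
      subst hx'eq
      have h1 := hf (σ • y) hσy
      have h2 := hf y hy
      calc ((f ⟨pull (σ • y), hx'⟩ : torsOf J ((ℓ : ℤ) ^ k)) : J)
          = ((ℓ : ℤ) ^ a) • (σ • y) := h1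
        _ = σ • (((ℓ : ℤ) ^ a) • y) := (smul_zsmul' σ _ y).symm
        _ = _ := by rw [← h2]

/-- transfer data compose -/
theorem HasTransfer.comp {J'' : Type*} [AddCommGroup J''] [DistribMulAction G J''] {ℓ : ℕ}
    (h₁ : ∀ k, HasTransfer G J J' ℓ k) (h₂ : ∀ k, HasTransfer G J' J'' ℓ k) (k : ℕ) :
    HasTransfer G J J'' ℓ k := by
  obtain ⟨k₁, M₁, hM₁, hst₁, f₁, hf₁s, hf₁e⟩ := h₁ k
  obtain ⟨k₂, M₂, hM₂, hst₂, f₂, hf₂s, hf₂e⟩ := h₂ k₁
  -- `g = f₂` with values in `J'`, `M' = g⁻¹ M₁ ⊆ M₂`, `M` = its image in `J''`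
  set g : M₂ →+ J' := (torsOf J' ((ℓ : ℤ) ^ k₁)).subtype.comp f₂ with hg
  set M' : AddSubgroup M₂ := M₁.comap g with hM'
  set M : AddSubgroup J'' := M'.map M₂.subtype with hM
  set e : M' ≃+ M := M'.equivMapOfInjective M₂.subtype Subtype.val_injective with he
  have he_coe : ∀ x : M', ((e x : M) : J'') = ((x : M₂) : J'') := fun x =>
    AddSubgroup.coe_equivMapOfInjective_apply M' M₂.subtype Subtype.val_injective x
  have hes_coe : ∀ x : M, (((e.symm x : M') : M₂) : J'') = (x : J'') := fun x => by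
    rw [← he_coe, AddEquiv.apply_symm_apply]
  set g' : M' →+ M₁ := (g.comp M'.subtype).codRestrict M₁ (fun x => x.2) with hg'
  have hg'_coe : ∀ x : M', ((g' x : M₁) : J') = ((f₂ (x : M₂) : torsOf J' ((ℓ : ℤ) ^ k₁)) : J') :=
    fun _ => rfl
  set f : M →+ torsOf J ((ℓ : ℤ) ^ k) := f₁.comp (g'.comp (e.symm : M →+ M')) with hf
  refine ⟨k₂, M, ?_, ?_, f, ?_, ?_⟩
  · rintro _ ⟨x, -, rfl⟩
    exact hM₂ x.2
  · rintro σ _ ⟨x, hx, rfl⟩
    have hσx : σ • (x : J'') ∈ M₂ := hst₂ σ _ x.2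
    refine ⟨⟨σ • (x : J''), hσx⟩, ?_, rfl⟩
    show g ⟨σ • (x : J''), hσx⟩ ∈ M₁
    have h1 : g ⟨σ • (x : J''), hσx⟩ = σ • g x := hf₂e σ x ⟨σ • (x : J''), hσx⟩ rfl
    rw [h1]
    exact hst₁ σ _ hx
  · intro y
    obtain ⟨x₁, rfl⟩ := hf₁s y
    obtain ⟨x₂, hx₂⟩ := hf₂s ⟨(x₁ : J'), hM₁ x₁.2⟩
    have hx₂M' : x₂ ∈ M' := by
      show g x₂ ∈ M₁
      have : g x₂ = (x₁ : J') := congrArg Subtype.val hx₂
      rw [this]
      exact x₁.2
    refine ⟨e ⟨x₂, hx₂M'⟩, ?_⟩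
    show f₁ (g' (e.symm (e ⟨x₂, hx₂M'⟩))) = f₁ x₁
    rw [AddEquiv.symm_apply_apply]
    congr 1
    apply Subtype.ext
    rw [hg'_coe]
    exact congrArg Subtype.val hx₂
  · intro σ x y hxy
    show ((f₁ (g' (e.symm y)) : torsOf J ((ℓ : ℤ) ^ k)) : J) =
      σ • ((f₁ (g' (e.symm x)) : torsOf J ((ℓ : ℤ) ^ k)) : J)
    refine hf₁e σ _ _ ?_
    rw [hg'_coe, hg'_coe]
    refine hf₂e σ _ _ ?_
    rw [hes_coe, hes_coe]
    exact hxy

/-- the identity transfer -/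
theorem HasTransfer.refl (ℓ k : ℕ) : HasTransfer G J J ℓ k :=
  ⟨k, torsOf J ((ℓ : ℤ) ^ k), le_rfl, fun σ x hx => by
      rw [mem_torsOf] at hx ⊢
      rw [← smul_zsmul', hx, smul_zero],
    AddMonoidHom.id _, fun y => ⟨y, rfl⟩, fun σ x y h => h⟩

end Abstract

/-! ### the modular instance -/

theorem torsOf_eq_tors (N : ℕ) [NeZero N] (m : ℤ) : torsOf (JZero N) m = tors N m := rfl

/-- one step: from level `N q` to level `N` -/
theorem hasTransfer_mul (N q : ℕ) [NeZero N] [NeZero q] {ℓ : ℕ} (hℓ : ℓ.Prime) (k : ℕ) :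
    HasTransfer GQ (JZero N) (JZero (N * q)) ℓ k := by
  haveI := hasPrincipalDivisors_FB (N * q)
  have hfin := finiteAlong_alpha N q
  have hd : finrankAlong Qb (heckeAlphaBar Qb N q) ≠ 0 := by
    letI := algebraAlong (heckeAlphaBar Qb N q)
    haveI : Module.Finite (FB N) (FB (N * q)) := hfin
    exact (Module.finrank_pos (R := FB N) (M := FB (N * q))).ne'
  refine hasTransfer_of_pull_push (G := GQ)
    (pic0PullbackAlong (heckeAlphaBar Qb N q) (heckeAlphaBarIntegral N q)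
      (fundamentalIdentityAlong_alpha N q))
    (pic0PushforwardAlong (heckeAlphaBar Qb N q) (heckeAlphaBarIntegral N q) hfin
      (normFormulaAlong_alpha N q))
    (finrankAlong Qb (heckeAlphaBar Qb N q)) hd ?_ ?_ hℓ ?_ k
  · intro y
    exact pic0PushforwardAlong_pullbackAlong _ _ (fundamentalIdentityAlong_alpha N q) hfin
      (normFormulaAlong_alpha N q) (GH.deg_ne_zero_FB N) y
  · intro σ y
    exact pic0PullbackAlong_smul _ _ (fundamentalIdentityAlong_alpha N q)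
      (GH.intertwines_alpha N q σ) y
  · intro k y hy
    have hy' : ((ℓ ^ k : ℕ) : ℤ) • y = 0 := by push_cast; exact hy
    obtain ⟨y', hy', hy'y⟩ := exists_smul_eq hℓ k y hy'
    refine ⟨y', ?_, hy'y⟩
    have := hy'
    push_cast at this
    exact this

theorem hasTransfer_of_eq_mul {ℓ : ℕ} (hℓ : ℓ.Prime) (m : ℕ) :
    ∀ (N N' : ℕ) [NeZero N] [NeZero N'], N' = N * m →
      ∀ k, HasTransfer GQ (JZero N) (JZero N') ℓ k := by
  induction m using Nat.strong_induction_on with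
  | _ m ih =>
    intro N N' _ _ hN' k
    rcases eq_or_ne m 1 with rfl | hm1
    · obtain rfl : N' = N := by rw [hN', mul_one]
      exact HasTransfer.refl ℓ k
    · obtain ⟨q, hq, m', rfl⟩ := Nat.exists_prime_and_dvd hm1
      have hm0 : q * m' ≠ 0 := by
        rintro h0; exact NeZero.ne N' (by rw [hN', h0, mul_zero])
      have hm'0 : m' ≠ 0 := right_ne_zero_of_mul hm0
      haveI : NeZero q := ⟨hq.ne_zero⟩
      haveI : NeZero (N * m') := ⟨mul_ne_zero (NeZero.ne N) hm'0⟩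
      have hlt : m' < q * m' := by
        have := hq.two_le
        have := Nat.pos_of_ne_zero hm'0
        nlinarith
      haveI : NeZero (N * m' * q) := ⟨mul_ne_zero (NeZero.ne _) hq.ne_zero⟩
      obtain rfl : N' = N * m' * q := by rw [hN']; ring
      exact HasTransfer.comp (fun k => ih m' hlt N (N * m') rfl k)
        (fun k => hasTransfer_mul (N * m') q hℓ k) k

/-- **`TransferStmt`** -/
theorem transferStmt : TransferStmt := by
  intro N N' _ _ hNN' ℓ _ k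
  obtain ⟨m, hm⟩ := hNN'
  exact hasTransfer_of_eq_mul (Fact.out : ℓ.Prime) m N N' hm k

end Fermat.Agent.S19lib.T
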